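/-
S41 (level raising), leaf DICT-COMM (helper73, backup copy): the Hecke operators
`heckeHom M ℓ A` commute on parabolic homomorphisms, for `A = ℂ` and `A = ℤ`.

Inputs: LANDED `S21.result` (range of `periodHomPair` = parabolic homs),
`S16.H75.periodHomPair_formOp` (dictionary) and the commutativity of the Prelude Hecke algebra of
forms (`S41.H40.formOp_comm_apply`).
-/
import Fermat.Agent.S41.H40.FormsOfBetti
import Fermat.Agent.S41.H40.Lattice

set_option autoImplicit false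
open CongruenceSubgroup ModularCurve ModularCurve.Period
open Fermat.Agent.S16.H75 (heckeHom formOp)

namespace Fermat.Agent.S41.H73

/-- **DICT-COMM, `A = ℂ`.** The Hecke operators commute on parabolic homomorphisms
`Γ₀(M) → ℂ`. -/
theorem heckeHom_comm_complex (M : ℕ) [NeZero M] (ℓ ℓ' : Nat.Primes)
    (v : Additive (Gamma0 M) →+ ℂ) (hv : IsParabolicHom (Gamma0 M) v) :
    heckeHom M ℓ ℂ (heckeHom M ℓ' ℂ v) = heckeHom M ℓ' ℂ (heckeHom M ℓ ℂ v) := by
  obtain ⟨-, hrange⟩ := Fermat.Agent.S21.result M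
  have hvmem : v ∈ LinearMap.range (periodHomPair M) := by
    rw [hrange]
    exact hv
  obtain ⟨⟨f, g⟩, rfl⟩ := hvmem
  rw [← Fermat.Agent.S16.H75.periodHomPair_formOp, ← Fermat.Agent.S16.H75.periodHomPair_formOp,
    ← Fermat.Agent.S16.H75.periodHomPair_formOp, ← Fermat.Agent.S16.H75.periodHomPair_formOp,
    Fermat.Agent.S41.H40.formOp_comm_apply M ℓ ℓ' f,
    Fermat.Agent.S41.H40.formOp_comm_apply M ℓ ℓ' g]

/-- **DICT-COMM, `A = ℤ`.** The Hecke operators commute on parabolic homomorphisms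
`Γ₀(M) → ℤ`. -/
theorem heckeHom_comm_int (M : ℕ) [NeZero M] (ℓ ℓ' : Nat.Primes)
    (v : Additive (Gamma0 M) →+ ℤ) (hv : IsParabolicHom (Gamma0 M) v) :
    heckeHom M ℓ ℤ (heckeHom M ℓ' ℤ v) = heckeHom M ℓ' ℤ (heckeHom M ℓ ℤ v) := by
  apply Fermat.Agent.S41.H40.castC_injective M
  rw [← Fermat.Agent.S41.H40.heckeHom_castC, ← Fermat.Agent.S41.H40.heckeHom_castC,
    ← Fermat.Agent.S41.H40.heckeHom_castC, ← Fermat.Agent.S41.H40.heckeHom_castC]
  exact heckeHom_comm_complex M ℓ ℓ' _ (Fermat.Agent.S41.H40.isParabolicHom_castC hv)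

/-- Submodule form of DICT-COMM over `ℤ` (the shape `hBcomm` of the DSG / lattice leaves). -/
theorem heckeHom_comm_of_mem (M : ℕ) [NeZero M] (ℓ ℓ' : Nat.Primes)
    (v : Additive (Gamma0 M) →+ ℤ) (hv : v ∈ parabolicHoms ℤ (Gamma0 M) ℤ) :
    heckeHom M ℓ ℤ (heckeHom M ℓ' ℤ v) = heckeHom M ℓ' ℤ (heckeHom M ℓ ℤ v) :=
  heckeHom_comm_int M ℓ ℓ' v hv

end Fermat.Agent.S41.H73
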