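/-
S41 (level raising), leaf T1 (helper73, backup copy): a normalised eigenform `f` of level `N`
(Prelude `IsNormalizedEigenform`: relations between `q`-coefficients) is an eigenvector of every
Hecke operator `formOp N ℓ` with eigenvalue `a_ℓ(f)`, and its period homomorphism
`periodHomPair N (f, 0)` is a nonzero parabolic eigen-homomorphism of `heckeHom N ℓ ℂ`.

Inputs: LANDED `S49` (`qCoeff_heckeTLin`, `qCoeff_heckeULin`, `eq_zero_of_qCoeff`), `S21.result`,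
`S16.H75.periodHomPair_formOp`, `S41.H40.formOp_of_dvd / formOp_of_not_dvd`.
-/
import Fermat.Agent.S41.H40.FormsOfBetti

set_option autoImplicit false
open CongruenceSubgroup ModularCurve ModularCurve.Period ModularFormClass
open Fermat.Agent.S16.H75 (heckeHom formOp)

namespace Fermat.Agent.S41.H73

variable {N : ℕ}

/-- Coefficient relation of a normalised eigenform at a prime not dividing the level. -/
theorem qCoeff_mul_prime_of_not_dvd (f : CuspForm (Gamma0 N) 2) (hf : f.IsNormalizedEigenform)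
    {ℓ : ℕ} (hℓ : ℓ.Prime) (hℓN : ¬ ℓ ∣ N) (n : ℕ) :
    qCoeff ⇑f (n * ℓ) + (if ℓ ∣ n then (ℓ : ℂ) * qCoeff ⇑f (n / ℓ) else 0)
      = qCoeff ⇑f ℓ * qCoeff ⇑f n := by
  rcases Nat.eq_zero_or_pos n with rfl | hn
  · rw [zero_mul, Nat.zero_div, if_pos (dvd_zero ℓ), Fermat.Agent.S49.qCoeff_cusp_zero]
    ring
  obtain ⟨r, m, hm, rfl⟩ := Nat.exists_eq_pow_mul_and_not_dvd hn.ne' ℓ hℓ.ne_one
  have hcop : ∀ k : ℕ, Nat.Coprime (ℓ ^ k) m := fun k =>
    Nat.Coprime.pow_left k ((Nat.Prime.coprime_iff_not_dvd hℓ).mpr hm)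
  cases r with
  | zero =>
    rw [pow_zero, one_mul, if_neg hm, add_zero, hf.qCoeff_mul_of_coprime m ℓ
      ((Nat.Prime.coprime_iff_not_dvd hℓ).mpr hm).symm, mul_comm]
  | succ s =>
    have hdvd : ℓ ∣ ℓ ^ (s + 1) * m := Dvd.dvd.mul_right (dvd_pow_self ℓ (Nat.succ_ne_zero s)) m
    have e1 : ℓ ^ (s + 1) * m * ℓ = ℓ ^ (s + 2) * m := by ring
    have e2 : ℓ ^ (s + 1) * m / ℓ = ℓ ^ s * m := by
      rw [pow_succ, mul_assoc, mul_comm ℓ m, ← mul_assoc]
      exact Nat.mul_div_cancel _ hℓ.pos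
    rw [if_pos hdvd, e1, e2, hf.qCoeff_mul_of_coprime _ _ (hcop (s + 2)),
      hf.qCoeff_mul_of_coprime _ _ (hcop s), hf.qCoeff_mul_of_coprime _ _ (hcop (s + 1)),
      hf.qCoeff_prime_pow_of_not_dvd ℓ s hℓ hℓN]
    ring

/-- Coefficient relation of a normalised eigenform at a prime dividing the level. -/
theorem qCoeff_mul_prime_of_dvd (f : CuspForm (Gamma0 N) 2) (hf : f.IsNormalizedEigenform)
    {ℓ : ℕ} (hℓ : ℓ.Prime) (hℓN : ℓ ∣ N) (n : ℕ) :
    qCoeff ⇑f (n * ℓ) = qCoeff ⇑f ℓ * qCoeff ⇑f n := by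
  rcases Nat.eq_zero_or_pos n with rfl | hn
  · rw [zero_mul, Fermat.Agent.S49.qCoeff_cusp_zero, mul_zero]
  obtain ⟨r, m, hm, rfl⟩ := Nat.exists_eq_pow_mul_and_not_dvd hn.ne' ℓ hℓ.ne_one
  have hcop : ∀ k : ℕ, Nat.Coprime (ℓ ^ k) m := fun k =>
    Nat.Coprime.pow_left k ((Nat.Prime.coprime_iff_not_dvd hℓ).mpr hm)
  cases r with
  | zero =>
    rw [pow_zero, one_mul, hf.qCoeff_mul_of_coprime m ℓ
      ((Nat.Prime.coprime_iff_not_dvd hℓ).mpr hm).symm, mul_comm]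
  | succ s =>
    have e1 : ℓ ^ (s + 1) * m * ℓ = ℓ ^ (s + 2) * m := by ring
    rw [e1, hf.qCoeff_mul_of_coprime _ _ (hcop (s + 2)),
      hf.qCoeff_mul_of_coprime _ _ (hcop (s + 1)), hf.qCoeff_prime_pow_of_dvd ℓ s hℓ hℓN]
    ring

variable [NeZero N]

/-- A normalised eigenform is an eigenvector of every Hecke operator `formOp N ℓ`
(`T_ℓ` for `ℓ ∤ N`, `U_ℓ` for `ℓ ∣ N`), with eigenvalue its `ℓ`-th `q`-coefficient. -/
theorem formOp_eq_smul (f : CuspForm (Gamma0 N) 2) (hf : f.IsNormalizedEigenform)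
    (ℓ : Nat.Primes) : formOp N ℓ f = qCoeff ⇑f (ℓ : ℕ) • f := by
  obtain ⟨ℓ, hℓ⟩ := ℓ
  rw [← sub_eq_zero]
  apply Fermat.Agent.S49.eq_zero_of_qCoeff
  intro n
  have hsub : ∀ g h : CuspForm (Gamma0 N) 2, qCoeff ⇑(g - h) n = qCoeff ⇑g n - qCoeff ⇑h n :=
    fun g h => map_sub (Fermat.Agent.S49.qCoeffLin N 2 n) g h
  rw [hsub, Fermat.Agent.S49.qCoeff_smul, sub_eq_zero]
  by_cases h : ℓ ∣ N
  · rw [Fermat.Agent.S41.H40.formOp_of_dvd hℓ h, Fermat.Agent.S49.qCoeff_heckeULin hℓ h]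
    exact qCoeff_mul_prime_of_dvd f hf hℓ h n
  · rw [Fermat.Agent.S41.H40.formOp_of_not_dvd hℓ h, Fermat.Agent.S49.qCoeff_heckeTLin hℓ h]
    exact qCoeff_mul_prime_of_not_dvd f hf hℓ h n

omit [NeZero N] in
/-- A normalised eigenform is nonzero. -/
theorem ne_zero_of_isNormalizedEigenform (f : CuspForm (Gamma0 N) 2)
    (hf : f.IsNormalizedEigenform) : f ≠ 0 := by
  rintro rfl
  have h1 := hf.qCoeff_one
  have h0 : qCoeff ⇑(0 : CuspForm (Gamma0 N) 2) 1 = 0 :=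
    map_zero (Fermat.Agent.S49.qCoeffLin N 2 1)
  rw [h0] at h1
  exact zero_ne_one h1

/-- **Leaf T1.** The period homomorphism of a normalised eigenform `f` of level `N` is a nonzero
parabolic homomorphism `Γ₀(N) → ℂ` which is an eigenvector of `heckeHom N ℓ ℂ` with eigenvalue
`a_ℓ(f)`, for every prime `ℓ`. -/
theorem exists_eigenHom_of_eigenform (f : CuspForm (Gamma0 N) 2) (hf : f.IsNormalizedEigenform) :
    ∃ x : Additive (Gamma0 N) →+ ℂ, x ∈ parabolicHoms ℂ (Gamma0 N) ℂ ∧ x ≠ 0 ∧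
      ∀ l : Nat.Primes, heckeHom N l ℂ x = qCoeff ⇑f (l : ℕ) • x := by
  obtain ⟨hinj, hrange⟩ := Fermat.Agent.S21.result N
  refine ⟨periodHomPair N (f, 0), ?_, ?_, ?_⟩
  · rw [← hrange]
    exact LinearMap.mem_range_self _ _
  · intro h0
    have h1 : ((f, 0) : CuspForm (Gamma0 N) 2 × CuspForm (Gamma0 N) 2) = 0 :=
      hinj (h0.trans (map_zero (periodHomPair N)).symm)
    exact ne_zero_of_isNormalizedEigenform f hf (congrArg Prod.fst h1)
  · intro l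
    have h0 : formOp N l (0 : CuspForm (Gamma0 N) 2) = 0 := map_zero _
    have h1 := Fermat.Agent.S16.H75.periodHomPair_formOp N l f 0
    rw [formOp_eq_smul f hf l, h0] at h1
    rw [← h1, ← map_smul]
    congr 1
    ext <;> simp

end Fermat.Agent.S41.H73
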